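/-
Project S35 (preparation), cell [RED-N], ABSTRACT CORE (helper4).  Mathlib only.  Prefix `rdn_`.

Reduction of the norm modulo the maximal ideal: `R` a local ring with maximal ideal `p`, `S` a finite
free `R`-algebra with `pS = P₁ ⊓ P₂`, `P₁`, `P₂` coprime ideals over `p`.  Then for `s ∈ S`
`N_{S/R}(s) mod p = N_{(S/P₁)/κ}(s̄) · N_{(S/P₂)/κ}(s̄)` (`rdn_norm_mod`), and in the situation of the
"two valuations lemma" (`f(P₁) = 1`, `S/P₂` purely inseparable of degree `q = char κ`):
`N_{S/R}(s) ≡ r₁ · r₂ mod p` whenever `s ≡ r₁ mod P₁` and `s ^ q ≡ r₂ mod P₂` (`rdn_norm_two`).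

* `rdn_norm_prod`        : the norm of a product algebra is the product of the norms;
* `rdn_norm_quotient_mk` : the norm commutes with reduction mod `p` (twin of Mathlib's
                           `Algebra.trace_quotient_mk`);
* `rdn_norm_of_pow`      : in characteristic `q`, `[L : k] = q`, `x ^ q = c ∈ k` ⟹ `N(x) = c`;
* `rdn_norm_of_finrank_one`.
-/
import Mathlib

set_option autoImplicit false
set_option linter.unusedSectionVars false
set_option linter.style.haveILetI false

noncomputable section

namespace Fermat.Agent.S35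

open IsLocalRing Module

/-! ### norms of product algebras -/

/-- the norm of a product algebra is the product of the norms. -/
theorem rdn_norm_prod {R S T : Type*} [CommRing R] [CommRing S] [CommRing T] [Algebra R S]
    [Algebra R T] [Module.Free R S] [Module.Free R T] [Module.Finite R S] [Module.Finite R T]
    (a : S) (b : T) :
    Algebra.norm R ((a, b) : S × T) = Algebra.norm R a * Algebra.norm R b := by
  rw [Algebra.norm_apply, Algebra.norm_apply, Algebra.norm_apply, ← LinearMap.det_prodMap]
  rfl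

/-! ### the norm commutes with reduction modulo the maximal ideal -/

section Quot

variable {R S : Type*} [CommRing R] [CommRing S] [Algebra R S] [IsLocalRing R]
  [Module.Free R S] [Module.Finite R S]

attribute [local instance] Ideal.Quotient.field

/-- the norm commutes with reduction modulo the maximal ideal (twin of
`Algebra.trace_quotient_mk`). -/
theorem rdn_norm_quotient_mk (x : S) :
    Algebra.norm (R ⧸ maximalIdeal R) (Ideal.Quotient.mk ((maximalIdeal R).map (algebraMap R S)) x) =
      Ideal.Quotient.mk (maximalIdeal R) (Algebra.norm R x) := by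
  classical
  let ι := Module.Free.ChooseBasisIndex R S
  let b : Module.Basis ι R S := Module.Free.chooseBasis R S
  rw [Algebra.norm_eq_matrix_det b, Algebra.norm_eq_matrix_det (basisQuotient b), RingHom.map_det]
  congr 1
  ext i j
  simp only [Algebra.leftMulMatrix_apply, Algebra.coe_lmul_eq_mul, LinearMap.toMatrix_apply,
    basisQuotient_apply, LinearMap.mul_apply', RingHom.mapMatrix_apply, Matrix.map_apply,
    ← map_mul, basisQuotient_repr]

end Quot

/-! ### norms in residue extensions -/

/-- in characteristic `q`, if `[L : k] = q` and `x ^ q = c ∈ k` then `N_{L/k}(x) = c`. -/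
theorem rdn_norm_of_pow {k L : Type*} [Field k] [Field L] [Algebra k L] (q : ℕ) [Fact q.Prime]
    [CharP k q] (hfr : Module.finrank k L = q) (x : L) (c : k) (hx : x ^ q = algebraMap k L c) :
    Algebra.norm k x = c := by
  have h1 : Algebra.norm k x ^ q = c ^ q := by
    rw [← map_pow, hx, Algebra.norm_algebraMap, hfr]
  have h2 : (Algebra.norm k x - c) ^ q = 0 := by
    rw [sub_pow_char, h1, sub_self]
  exact sub_eq_zero.mp (pow_eq_zero_iff (Fact.out : q.Prime).ne_zero |>.mp h2)

/-- if `[L : k] = 1` and `x = c ∈ k` then `N_{L/k}(x) = c`. -/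
theorem rdn_norm_of_finrank_one {k L : Type*} [CommRing k] [CommRing L] [Algebra k L]
    [Module.Free k L] (hfr : Module.finrank k L = 1) (x : L) (c : k)
    (hx : x = algebraMap k L c) : Algebra.norm k x = c := by
  rw [hx, Algebra.norm_algebraMap, hfr, pow_one]

/-! ### the main statements -/

section Main

variable {R S : Type*} [CommRing R] [CommRing S] [Algebra R S] [IsLocalRing R]
  [Module.Free R S] [Module.Finite R S]

attribute [local instance] Ideal.Quotient.field

/-- **reduction of the norm**: if `pS = P₁ P₂` with `P₁`, `P₂` coprime ideals over the maximal ideal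
`p` of the local ring `R`, then `N_{S/R}(s) mod p` is the product of the norms of the residues of `s`
in `S/P₁` and `S/P₂`. -/
theorem rdn_norm_mod (P1 P2 : Ideal S) [P1.LiesOver (maximalIdeal R)]
    [P2.LiesOver (maximalIdeal R)]
    (hmap : (maximalIdeal R).map (algebraMap R S) = P1 * P2) (hcop : IsCoprime P1 P2) (s : S) :
    Ideal.Quotient.mk (maximalIdeal R) (Algebra.norm R s) =
      Algebra.norm (R ⧸ maximalIdeal R) (Ideal.Quotient.mk P1 s) *
        Algebra.norm (R ⧸ maximalIdeal R) (Ideal.Quotient.mk P2 s) := by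
  have : Module.Finite (R ⧸ maximalIdeal R) (S ⧸ P1) :=
    Module.Finite.of_restrictScalars_finite R _ _
  have : Module.Finite (R ⧸ maximalIdeal R) (S ⧸ P2) :=
    Module.Finite.of_restrictScalars_finite R _ _
  let e : (S ⧸ (maximalIdeal R).map (algebraMap R S)) ≃ₐ[R ⧸ maximalIdeal R]
      ((S ⧸ P1) × S ⧸ P2) :=
    { __ := (Ideal.quotEquivOfEq hmap).trans (Ideal.quotientMulEquivQuotientProd P1 P2 hcop),
      commutes' := Quotient.ind fun _ ↦ rfl }
  rw [← rdn_norm_quotient_mk, ← Algebra.norm_eq_of_algEquiv e, ← rdn_norm_prod]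
  rfl

end Main

section Two

variable {R S : Type*} [CommRing R] [CommRing S] [Algebra R S] [IsLocalRing R]
  [Module.Free R S] [Module.Finite R S]

attribute [local instance] Ideal.Quotient.field

/-- **[RED-N], ideal form.**  `R` local with maximal ideal `p` of residue characteristic `q`, `S`
finite free of rank `q + 1`, `pS = P₁ P₂` with `P₁`, `P₂` coprime over `p`, `R → S/P₁` onto
(`f(P₁) = 1`), `P₂` maximal.  If `s ≡ r₁ mod P₁` and `s ^ q ≡ r₂ mod P₂` then
`N_{S/R}(s) ≡ r₁ r₂ mod p`. -/
theorem rdn_norm_two {q : ℕ} (hq : q.Prime) (hqR : (q : R) ∈ maximalIdeal R)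
    (hrank : Module.finrank R S = q + 1) (P1 P2 : Ideal S) [P1.LiesOver (maximalIdeal R)]
    [P2.LiesOver (maximalIdeal R)] [P2.IsMaximal]
    (hmap : (maximalIdeal R).map (algebraMap R S) = P1 * P2) (hcop : IsCoprime P1 P2)
    (hsurj : ∀ s : S, ∃ r : R, s - algebraMap R S r ∈ P1)
    (s : S) (r1 r2 : R) (h1 : s - algebraMap R S r1 ∈ P1) (h2 : s ^ q - algebraMap R S r2 ∈ P2) :
    Algebra.norm R s - r1 * r2 ∈ maximalIdeal R := by
  haveI : Fact q.Prime := ⟨hq⟩
  have hfin1 : Module.Finite (R ⧸ maximalIdeal R) (S ⧸ P1) :=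
    Module.Finite.of_restrictScalars_finite R _ _
  have hfin2 : Module.Finite (R ⧸ maximalIdeal R) (S ⧸ P2) :=
    Module.Finite.of_restrictScalars_finite R _ _
  -- the residue characteristic
  haveI : CharP (R ⧸ maximalIdeal R) q := by
    have h0 : ((q : ℕ) : R ⧸ maximalIdeal R) = 0 := by
      rw [← map_natCast (Ideal.Quotient.mk (maximalIdeal R))]
      exact Ideal.Quotient.eq_zero_iff_mem.2 hqR
    have hd : ringChar (R ⧸ maximalIdeal R) ∣ q := ringChar.dvd h0
    have he : ringChar (R ⧸ maximalIdeal R) = q := by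
      rcases (Nat.dvd_prime hq).1 hd with h | h
      · exact absurd h CharP.ringChar_ne_one
      · exact h
    rw [← he]
    exact ringChar.charP _
  -- `f(P₁) = 1`
  have hP1top : P1 ≠ ⊤ := by
    intro h
    have h3 : maximalIdeal R = P1.under R := Ideal.LiesOver.over
    rw [h, Ideal.under, Ideal.comap_top] at h3
    exact (maximalIdeal.isMaximal R).ne_top h3
  haveI : Nontrivial (S ⧸ P1) := Ideal.Quotient.nontrivial_iff.mpr hP1top
  have hbij : Function.Bijective (algebraMap (R ⧸ maximalIdeal R) (S ⧸ P1)) := by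
    refine ⟨(algebraMap (R ⧸ maximalIdeal R) (S ⧸ P1)).injective, fun y => ?_⟩
    obtain ⟨y, rfl⟩ := Ideal.Quotient.mk_surjective y
    obtain ⟨r, hr⟩ := hsurj y
    refine ⟨Ideal.Quotient.mk _ r, ?_⟩
    rw [Ideal.Quotient.algebraMap_mk_of_liesOver]
    exact ((Ideal.Quotient.eq).2 hr).symm
  have hf1 : Module.finrank (R ⧸ maximalIdeal R) (S ⧸ P1) = 1 := by
    have e1 : (R ⧸ maximalIdeal R) ≃ₗ[R ⧸ maximalIdeal R] (S ⧸ P1) :=
      LinearEquiv.ofBijective (Algebra.linearMap (R ⧸ maximalIdeal R) (S ⧸ P1)) hbij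
    rw [← e1.finrank_eq, Module.finrank_self]
  -- `f(P₂) = q`
  have hf2 : Module.finrank (R ⧸ maximalIdeal R) (S ⧸ P2) = q := by
    let e : (S ⧸ (maximalIdeal R).map (algebraMap R S)) ≃ₐ[R ⧸ maximalIdeal R]
        ((S ⧸ P1) × S ⧸ P2) :=
      { __ := (Ideal.quotEquivOfEq hmap).trans (Ideal.quotientMulEquivQuotientProd P1 P2 hcop),
        commutes' := Quotient.ind fun _ ↦ rfl }
    have h3 := e.toLinearEquiv.finrank_eq
    rw [finrank_quotient_map, hrank, Module.finrank_prod, hf1] at h3
    omega
  -- the two residue norms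
  have hn1 : Algebra.norm (R ⧸ maximalIdeal R) (Ideal.Quotient.mk P1 s) =
      Ideal.Quotient.mk (maximalIdeal R) r1 := by
    refine rdn_norm_of_finrank_one hf1 _ _ ?_
    rw [Ideal.Quotient.algebraMap_mk_of_liesOver]
    exact (Ideal.Quotient.eq).2 h1
  have hn2 : Algebra.norm (R ⧸ maximalIdeal R) (Ideal.Quotient.mk P2 s) =
      Ideal.Quotient.mk (maximalIdeal R) r2 := by
    refine rdn_norm_of_pow q hf2 _ _ ?_
    rw [Ideal.Quotient.algebraMap_mk_of_liesOver, ← map_pow]
    exact (Ideal.Quotient.eq).2 h2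
  have key := rdn_norm_mod P1 P2 hmap hcop s
  rw [hn1, hn2, ← map_mul] at key
  exact (Ideal.Quotient.eq).1 key

end Two

end Fermat.Agent.S35
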