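/-
Project S35 (preparation), cell [RED-N], TWO-VALUATIONS FORM (helper4).  Prefix `rdn_`.

In the context of the two-valuations lemma `ssm_tw_Data K R q V1 W lam` of `SS/Model/TwoValW.lean`
(`[E : K] = q + 1`, `R` a DVR of `K` of residue characteristic `q`, `V1`, `V2 = W⁻¹ V1` the two
valuation subrings of `E` over `R`, `κ(V1) = κ(R)`, `κ(V2)^q ⊆ κ(R)`):

  for `a ∈ E` integral over `R` with `a ≡ r₁ mod 𝔪(V1)` and `a ^ q ≡ r₂ mod 𝔪(V2)` (`r₁, r₂ ∈ R`):
  `N_{E/K}(a) ∈ R` and `N_{E/K}(a) ≡ r₁ · r₂ mod 𝔪_R`                       (`rdn_tw_norm`).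

This is "`π₁|Z₁ = id`, `π₁|Z₂ = Frobenius`" for the degeneracy map `π₁ : X₀(N'q) → X₀(N')` (resp. its
Legendre / Hesse covers) in function-field form: `red_{V'}(N_α g) = ḡ₁ · Fr(ḡ₂)`.
The twin for the second degeneracy map is the same statement applied to `W a` (`rdn_tw_norm_W`).
-/
import Mathlib
import Fermat.Agent.S35.RedN.Core
import Fermat.Agent.SS.Model.TwoValW

set_option autoImplicit false
set_option linter.unusedSectionVars false
set_option linter.style.haveILetI false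

noncomputable section

namespace Fermat.Agent.S35

open IsLocalRing Module Fermat.Agent.SS

variable {K : Type*} {E : Type*} [Field K] [Field E] [Algebra K E] [FiniteDimensional K E]
  [Algebra.IsSeparable K E]
  {R : Type*} [CommRing R] [IsDomain R] [IsDiscreteValuationRing R] [Algebra R K]
  [IsFractionRing R K] [Algebra R E] [IsScalarTower R K E]
  {q : ℕ} {V1 : ValuationSubring E} {W : E ≃+* E} {lam : R}

/-- **[RED-N]**, two-valuations form. -/
theorem rdn_tw_norm (D : ssm_tw_Data K R q V1 W lam) (a : E) (ha : IsIntegral R a) (r1 r2 : R)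
    (h1 : a - algebraMap R E r1 ∈ V1.nonunits)
    (h2 : a ^ q - algebraMap R E r2 ∈ (V1.comap (W : E →+* E)).nonunits) :
    ∃ n : R, algebraMap R K n = Algebra.norm K a ∧ n - r1 * r2 ∈ maximalIdeal R := by
  obtain ⟨hD, hF, hfin, hfree, hrk⟩ := ssm_tw_inst K (E := E) R
  haveI := hD
  haveI := hF
  haveI := hfin
  haveI := hfree
  obtain ⟨-, hmap, hcop, -, hsurj, -⟩ := ssm_tw_core D
  have hV2 := ssm_tw_over2 D
  haveI : (ssm_tw_centre K R V1 D.over1).LiesOver (maximalIdeal R) :=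
    ⟨(ssm_tw_comap_centre D.over1).symm⟩
  haveI : (ssm_tw_centre K R (V1.comap (W : E →+* E)) hV2).LiesOver (maximalIdeal R) :=
    ⟨(ssm_tw_comap_centre hV2).symm⟩
  haveI : (ssm_tw_centre K R (V1.comap (W : E →+* E)) hV2).IsMaximal :=
    ssm_tw_centre_isMaximal hV2
  have hmap' : (maximalIdeal R).map (algebraMap R ↥(integralClosure R E)) =
      ssm_tw_centre K R V1 D.over1 * ssm_tw_centre K R (V1.comap (W : E →+* E)) hV2 := by
    rw [hmap, Ideal.mul_eq_inf_of_coprime (Ideal.isCoprime_iff_sup_eq.mp hcop)]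
  set s : ↥(integralClosure R E) := ⟨a, ha⟩ with hs
  refine ⟨Algebra.norm R s, ?_, ?_⟩
  · haveI : IsLocalization (Algebra.algebraMapSubmonoid ↥(integralClosure R E)
        (nonZeroDivisors R)) E :=
      IsIntegralClosure.isLocalization_of_isSeparable R K E ↥(integralClosure R E)
    exact (Algebra.norm_localization R (nonZeroDivisors R) (Rₘ := K) (Sₘ := E) s).symm
  · refine rdn_norm_two D.q_prime D.q_mem (hrk.trans D.finrank_eq) _ _ hmap' hcop hsurj s r1 r2
      ?_ ?_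
    · rw [ssm_tw_mem_centre]
      exact h1
    · rw [ssm_tw_mem_centre]
      exact h2

/-- **[RED-N]**, existence form: for `a ∈ V1 ⊓ V2` there are residues `r₁` (of `a` at `V1`) and `r₂`
(of `a ^ q` at `V2`) in `R` with `N_{E/K}(a) ≡ r₁ r₂`. -/
theorem rdn_tw_norm_exists (D : ssm_tw_Data K R q V1 W lam) (a : E) (ha1 : a ∈ V1)
    (ha2 : a ∈ V1.comap (W : E →+* E)) :
    ∃ r1 r2 n : R, a - algebraMap R E r1 ∈ V1.nonunits ∧
      a ^ q - algebraMap R E r2 ∈ (V1.comap (W : E →+* E)).nonunits ∧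
      algebraMap R K n = Algebra.norm K a ∧ n - r1 * r2 ∈ maximalIdeal R := by
  obtain ⟨r1, hr1⟩ := ssm_tw_res1 D a ha1
  obtain ⟨r2, hr2⟩ := ssm_tw_pow2 D a ha2
  obtain ⟨n, hn1, hn2⟩ := rdn_tw_norm D a ((ssm_tw_integral D a).2 ⟨ha1, ha2⟩) r1 r2 hr1 hr2
  exact ⟨r1, r2, n, hr1, hr2, hn1, hn2⟩

/-- **[RED-N]** for the second degeneracy map (`K` embedded by `W ∘ algebraMap`): the norm of `a`
for that embedding is `N_{E/K}(W a)`; if `a ≡ W r₁ mod 𝔪(V2)` and `a ^ q ≡ W r₂ mod 𝔪(V1)` then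
`N_{E/K}(W a) ≡ r₁ r₂ mod 𝔪_R`. -/
theorem rdn_tw_norm_W (D : ssm_tw_Data K R q V1 W lam) (a : E) (ha : IsIntegral R (W a))
    (r1 r2 : R)
    (h1 : a - W (algebraMap R E r1) ∈ (V1.comap (W : E →+* E)).nonunits)
    (h2 : a ^ q - W (algebraMap R E r2) ∈ V1.nonunits) :
    ∃ n : R, algebraMap R K n = Algebra.norm K (W a) ∧ n - r1 * r2 ∈ maximalIdeal R := by
  refine rdn_tw_norm D (W a) ha r1 r2 ?_ ?_
  · have := (ssm_tw_nonunits_comap V1 W _).1 h1
    rwa [map_sub, D.invol] at this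
  · rw [ssm_tw_nonunits_comap, map_sub, map_pow, D.invol]
    exact h2

end Fermat.Agent.S35
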