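/-
Project S35, cell [RED-N], INSTANCE LAYER (helper4).  Prefix `rdn_`.

The two-valuations form `rdn_tw_norm` (`S35/RedN/TwoVal.lean`) in the concrete q-expansion context
of `SS/Model/TwoValInst.lean` / `TwoPrimesInst.lean`: a tower `E' ≤ E ≤ Quot(O((X)))` inside
`L((X))`, `O` a discrete valuation ring of `L` of residue characteristic `q`, an involution `W` of
`E` with `W z = z(X^q)` on `E'` and `[E : E'] = q + 1`.  With `red = gq_res` (coefficientwise
reduction of Gauss-bounded quotients, values in `k((X))`, `k` the residue field of `O`) and `Fr`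
the coefficientwise `q`-Frobenius of `k((X))`:

  for `a ∈ E` with `a` and `W a` Gauss-bounded, `N_{E/E'}(a)` is Gauss-bounded and
      `red (N_{E/E'} a) = red a · Fr (red (W a))`                       (`rdn_gi_norm_res`);
  the same for the second degeneracy map (norm of `W a`):
      `red (N_{E/E'} (W a)) = red (W a) · Fr (red a)`                   (`rdn_gi_norm_res_W`).

`rdn_gt_norm_res`, `rdn_gt_norm_res_W`: the same with the inclusion algebra structure of
`SS/Model/TwoPrimesInst.lean` and the data built by `ssm_gt_data`.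
-/
import Mathlib
import Fermat.Agent.S35.RedN.TwoVal
import Fermat.Agent.SS.Model.TwoPrimesInst
import Fermat.Agent.JT3.ES.CoeffAut

set_option autoImplicit false
set_option linter.unusedSectionVars false
set_option linter.unusedVariables false
set_option linter.style.haveILetI false

noncomputable section

namespace Fermat.Agent.S35

open ModularCurve IntermediateField IsLocalRing
open Fermat.Agent.JT3 Fermat.Agent.SS

section Res

variable {O : Type*} [CommRing O] [IsDomain O] [IsLocalRing O]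
variable {K : Type*} [Field K] [Algebra O K] [IsFractionRing O K]

/-- `gq_res` only depends on the underlying series. -/
theorem rdn_res_congr {x y : LaurentSeries K} (hx : gq_IsBdd O K x) (hy : gq_IsBdd O K y)
    (h : x = y) : gq_res O K ⟨x, hx⟩ = gq_res O K ⟨y, hy⟩ := by
  subst h
  rfl

theorem rdn_res_sub {x y : LaurentSeries K} (hx : gq_IsBdd O K x) (hy : gq_IsBdd O K y)
    (hxy : gq_IsBdd O K (x - y)) :
    gq_res O K ⟨x - y, hxy⟩ = gq_res O K ⟨x, hx⟩ - gq_res O K ⟨y, hy⟩ := by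
  rw [← map_sub]
  rfl

theorem rdn_res_mul {x y : LaurentSeries K} (hx : gq_IsBdd O K x) (hy : gq_IsBdd O K y)
    (hxy : gq_IsBdd O K (x * y)) :
    gq_res O K ⟨x * y, hxy⟩ = gq_res O K ⟨x, hx⟩ * gq_res O K ⟨y, hy⟩ := by
  rw [← map_mul]
  rfl

theorem rdn_res_pow {x : LaurentSeries K} (hx : gq_IsBdd O K x) (n : ℕ)
    (hxn : gq_IsBdd O K (x ^ n)) :
    gq_res O K ⟨x ^ n, hxn⟩ = gq_res O K ⟨x, hx⟩ ^ n := by
  rw [← map_pow]
  rfl

end Res

section Data

variable {L : Type*} [Field L] (O : ValuationSubring L) [IsDiscreteValuationRing O] {π : O}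
  (hπ : Irreducible π)
variable (q : ℕ) [NeZero q] [hq : Fact q.Prime] [CharP (ResidueField O) q]
variable (E' E : IntermediateField L (LaurentSeries L)) (hle : E' ≤ E)
  (hE : E ≤ gq_quotField O L)

variable [Algebra ↥E' ↥E] [FiniteDimensional ↥E' ↥E] [Algebra.IsSeparable ↥E' ↥E]
  (halg : ∀ z : ↥E', ((algebraMap ↥E' ↥E z : ↥E) : LaurentSeries L) = (z : LaurentSeries L))
  [Algebra ↥(gq_valSubOf π hπ.ne_zero hπ.maximalIdeal_eq E' (hle.trans hE)) ↥E]
  [IsScalarTower ↥(gq_valSubOf π hπ.ne_zero hπ.maximalIdeal_eq E' (hle.trans hE)) ↥E' ↥E]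

include halg in
/-- **[RED-N]**, q-expansion form with the residues in `E'` made explicit: there are `r₁ r₂ n` in
the Gauss ring of `E'` with `n = N_{E/E'}(a)`, `red a = red r₁`, `Fr (red (W a)) = red r₂` and
`red n = red r₁ · red r₂`. -/
theorem rdn_gi_norm_res_aux (W : ↥E ≃+* ↥E)
    (hW : ∀ z : ↥E', ((W (algebraMap ↥E' ↥E z) : ↥E) : LaurentSeries L) =
      qExpand L q (z : LaurentSeries L))
    {lam : ↥(gq_valSubOf π hπ.ne_zero hπ.maximalIdeal_eq E' (hle.trans hE))}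
    (D : ssm_tw_Data ↥E' ↥(gq_valSubOf π hπ.ne_zero hπ.maximalIdeal_eq E' (hle.trans hE)) q
      (gq_valSubOf π hπ.ne_zero hπ.maximalIdeal_eq E hE) W lam)
    (a : ↥E) (h1 : gq_IsBdd O L (a : LaurentSeries L))
    (h2 : gq_IsBdd O L ((W a : ↥E) : LaurentSeries L)) :
    ∃ (r1 r2 n : ↥E') (hr1 : gq_IsBdd O L (r1 : LaurentSeries L))
      (hr2 : gq_IsBdd O L (r2 : LaurentSeries L)) (hn : gq_IsBdd O L (n : LaurentSeries L)),
      n = Algebra.norm ↥E' a ∧
      gq_res O L ⟨(a : LaurentSeries L), h1⟩ = gq_res O L ⟨(r1 : LaurentSeries L), hr1⟩ ∧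
      coeffMap (frobenius (ResidueField O) q)
        (gq_res O L ⟨((W a : ↥E) : LaurentSeries L), h2⟩) =
          gq_res O L ⟨(r2 : LaurentSeries L), hr2⟩ ∧
      gq_res O L ⟨(n : LaurentSeries L), hn⟩ =
        gq_res O L ⟨(r1 : LaurentSeries L), hr1⟩ * gq_res O L ⟨(r2 : LaurentSeries L), hr2⟩ := by
  have hcoe := ssm_gi_coe_algebraMapV O hπ E' E hle hE halg
  have hbd : ∀ r : ↥(gq_valSubOf π hπ.ne_zero hπ.maximalIdeal_eq E' (hle.trans hE)),
      gq_IsBdd O L ((r : ↥E') : LaurentSeries L) := fun r =>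
    (gq_mem_valSubOf π hπ.ne_zero hπ.maximalIdeal_eq E' (hle.trans hE) (r : ↥E')).1 r.2
  have ha1 : a ∈ gq_valSubOf π hπ.ne_zero hπ.maximalIdeal_eq E hE := h1
  have ha2 : a ∈ (gq_valSubOf π hπ.ne_zero hπ.maximalIdeal_eq E hE).comap (W : ↥E →+* ↥E) := h2
  obtain ⟨r1, r2, n, hr1, hr2, hn1, hn2⟩ := rdn_tw_norm_exists D a ha1 ha2
  -- (1) `red a = red r1`
  have e1 : gq_res O L ⟨(a : LaurentSeries L), h1⟩ =
      gq_res O L ⟨((r1 : ↥E') : LaurentSeries L), hbd r1⟩ := by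
    have hb : gq_IsBdd O L ((a - algebraMap
        ↥(gq_valSubOf π hπ.ne_zero hπ.maximalIdeal_eq E' (hle.trans hE)) ↥E r1 : ↥E) :
        LaurentSeries L) := by
      push_cast
      rw [hcoe]
      exact (gq_bddSubring O L).sub_mem h1 (hbd r1)
    have h0 := (gq_mem_nonunits_iff_res π hπ.ne_zero hπ.maximalIdeal_eq E hE _ hb).1 hr1
    have hb' : gq_IsBdd O L ((a : LaurentSeries L) - ((r1 : ↥E') : LaurentSeries L)) :=
      (gq_bddSubring O L).sub_mem h1 (hbd r1)
    have h0' : gq_res O L ⟨(a : LaurentSeries L) - ((r1 : ↥E') : LaurentSeries L), hb'⟩ = 0 := by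
      rw [← h0]
      exact rdn_res_congr _ _ (by push_cast; rw [hcoe])
    have hs := rdn_res_sub h1 (hbd r1) hb'
    rw [hs] at h0'
    exact sub_eq_zero.mp h0'
  -- (2) `red (W a) ^ q = (red r2)(X^q)`
  have hWr2 : ((W (algebraMap
      ↥(gq_valSubOf π hπ.ne_zero hπ.maximalIdeal_eq E' (hle.trans hE)) ↥E r2) : ↥E) :
      LaurentSeries L) = qExpand L q ((r2 : ↥E') : LaurentSeries L) := by
    rw [IsScalarTower.algebraMap_apply
      ↥(gq_valSubOf π hπ.ne_zero hπ.maximalIdeal_eq E' (hle.trans hE)) ↥E' ↥E, hW]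
    rfl
  have hbβ : gq_IsBdd O L (qExpand L q ((r2 : ↥E') : LaurentSeries L)) :=
    ssm_ga_beta_isBdd q (hbd r2)
  have hbp : gq_IsBdd O L (((W a : ↥E) : LaurentSeries L) ^ q) :=
    (gq_bddSubring O L).pow_mem h2 q
  have e2 : gq_res O L ⟨((W a : ↥E) : LaurentSeries L), h2⟩ ^ q =
      qExpand (ResidueField O) q (gq_res O L ⟨((r2 : ↥E') : LaurentSeries L), hbd r2⟩) := by
    have hr2' := (ssm_tw_nonunits_comap (gq_valSubOf π hπ.ne_zero hπ.maximalIdeal_eq E hE) W _).1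
      hr2
    have hb : gq_IsBdd O L ((W (a ^ q - algebraMap
        ↥(gq_valSubOf π hπ.ne_zero hπ.maximalIdeal_eq E' (hle.trans hE)) ↥E r2) : ↥E) :
        LaurentSeries L) := by
      rw [map_sub, map_pow]
      push_cast
      rw [hWr2]
      exact (gq_bddSubring O L).sub_mem hbp hbβ
    have h0 := (gq_mem_nonunits_iff_res π hπ.ne_zero hπ.maximalIdeal_eq E hE _ hb).1 hr2'
    have hb' : gq_IsBdd O L (((W a : ↥E) : LaurentSeries L) ^ q -
        qExpand L q ((r2 : ↥E') : LaurentSeries L)) := (gq_bddSubring O L).sub_mem hbp hbβ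
    have h0' : gq_res O L ⟨((W a : ↥E) : LaurentSeries L) ^ q -
        qExpand L q ((r2 : ↥E') : LaurentSeries L), hb'⟩ = 0 := by
      rw [← h0]
      exact rdn_res_congr _ _ (by rw [map_sub, map_pow]; push_cast; rw [hWr2])
    have hs := rdn_res_sub hbp hbβ hb'
    have hp := rdn_res_pow h2 q hbp
    rw [hs, hp] at h0'
    rw [sub_eq_zero.mp h0']
    exact ssm_ga_res_beta q (⟨((r2 : ↥E') : LaurentSeries L), hbd r2⟩ : ↥(gq_bddSubring O L))
  have e2' : gq_res O L ⟨((r2 : ↥E') : LaurentSeries L), hbd r2⟩ =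
      coeffMap (frobenius (ResidueField O) q)
        (gq_res O L ⟨((W a : ↥E) : LaurentSeries L), h2⟩) := by
    apply qExpand_injective q
    rw [← e2]
    exact ca_pow_eq_qExpand_frobenius (ResidueField O) q _
  -- (3) `red n = red r1 · red r2`
  have e3 : gq_res O L ⟨((n : ↥E') : LaurentSeries L), hbd n⟩ =
      gq_res O L ⟨((r1 : ↥E') : LaurentSeries L), hbd r1⟩ *
        gq_res O L ⟨((r2 : ↥E') : LaurentSeries L), hbd r2⟩ := by
    have hmem : ((n - r1 * r2 : ↥(gq_valSubOf π hπ.ne_zero hπ.maximalIdeal_eq E'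
        (hle.trans hE))) : ↥E') ∈
        (gq_valSubOf π hπ.ne_zero hπ.maximalIdeal_eq E' (hle.trans hE)).nonunits :=
      (ValuationSubring.coe_mem_nonunits_iff
        (A := gq_valSubOf π hπ.ne_zero hπ.maximalIdeal_eq E' (hle.trans hE))).2 hn2
    have h0 := (gq_mem_nonunits_iff_res π hπ.ne_zero hπ.maximalIdeal_eq E' (hle.trans hE) _
      (hbd (n - r1 * r2))).1 hmem
    have hb12 : gq_IsBdd O L (((r1 : ↥E') : LaurentSeries L) * ((r2 : ↥E') : LaurentSeries L)) :=
      (gq_bddSubring O L).mul_mem (hbd r1) (hbd r2)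
    have hb' : gq_IsBdd O L (((n : ↥E') : LaurentSeries L) -
        ((r1 : ↥E') : LaurentSeries L) * ((r2 : ↥E') : LaurentSeries L)) :=
      (gq_bddSubring O L).sub_mem (hbd n) hb12
    have h0' : gq_res O L ⟨((n : ↥E') : LaurentSeries L) -
        ((r1 : ↥E') : LaurentSeries L) * ((r2 : ↥E') : LaurentSeries L), hb'⟩ = 0 := by
      rw [← h0]
      exact rdn_res_congr _ _ (by push_cast; rfl)
    have hs := rdn_res_sub (hbd n) hb12 hb'
    have hm := rdn_res_mul (hbd r1) (hbd r2) hb12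
    rw [hs, hm] at h0'
    exact sub_eq_zero.mp h0'
  exact ⟨(r1 : ↥E'), (r2 : ↥E'), (n : ↥E'), hbd r1, hbd r2, hbd n, hn1, e1, e2'.symm, e3⟩

include halg in
/-- **[RED-N]**, q-expansion form: `red (N_{E/E'} a) = red a · Fr (red (W a))`. -/
theorem rdn_gi_norm_res (W : ↥E ≃+* ↥E)
    (hW : ∀ z : ↥E', ((W (algebraMap ↥E' ↥E z) : ↥E) : LaurentSeries L) =
      qExpand L q (z : LaurentSeries L))
    {lam : ↥(gq_valSubOf π hπ.ne_zero hπ.maximalIdeal_eq E' (hle.trans hE))}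
    (D : ssm_tw_Data ↥E' ↥(gq_valSubOf π hπ.ne_zero hπ.maximalIdeal_eq E' (hle.trans hE)) q
      (gq_valSubOf π hπ.ne_zero hπ.maximalIdeal_eq E hE) W lam)
    (a : ↥E) (h1 : gq_IsBdd O L (a : LaurentSeries L))
    (h2 : gq_IsBdd O L ((W a : ↥E) : LaurentSeries L)) :
    ∃ hN : gq_IsBdd O L ((Algebra.norm ↥E' a : ↥E') : LaurentSeries L),
      gq_res O L ⟨((Algebra.norm ↥E' a : ↥E') : LaurentSeries L), hN⟩ =
        gq_res O L ⟨(a : LaurentSeries L), h1⟩ *
          coeffMap (frobenius (ResidueField O) q)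
            (gq_res O L ⟨((W a : ↥E) : LaurentSeries L), h2⟩) := by
  obtain ⟨r1, r2, n, hr1, hr2, hn, hnN, e1, e2, e3⟩ :=
    rdn_gi_norm_res_aux O hπ q E' E hle hE halg W hW D a h1 h2
  subst hnN
  exact ⟨hn, by rw [e3, e1, e2]⟩

include halg in
/-- **[RED-N]** for the second degeneracy map: `red (N_{E/E'} (W a)) = red (W a) · Fr (red a)`. -/
theorem rdn_gi_norm_res_W (W : ↥E ≃+* ↥E)
    (hW : ∀ z : ↥E', ((W (algebraMap ↥E' ↥E z) : ↥E) : LaurentSeries L) =
      qExpand L q (z : LaurentSeries L))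
    {lam : ↥(gq_valSubOf π hπ.ne_zero hπ.maximalIdeal_eq E' (hle.trans hE))}
    (D : ssm_tw_Data ↥E' ↥(gq_valSubOf π hπ.ne_zero hπ.maximalIdeal_eq E' (hle.trans hE)) q
      (gq_valSubOf π hπ.ne_zero hπ.maximalIdeal_eq E hE) W lam)
    (a : ↥E) (h1 : gq_IsBdd O L (a : LaurentSeries L))
    (h2 : gq_IsBdd O L ((W a : ↥E) : LaurentSeries L)) :
    ∃ hN : gq_IsBdd O L ((Algebra.norm ↥E' (W a) : ↥E') : LaurentSeries L),
      gq_res O L ⟨((Algebra.norm ↥E' (W a) : ↥E') : LaurentSeries L), hN⟩ =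
        gq_res O L ⟨((W a : ↥E) : LaurentSeries L), h2⟩ *
          coeffMap (frobenius (ResidueField O) q) (gq_res O L ⟨(a : LaurentSeries L), h1⟩) := by
  have h1' : gq_IsBdd O L ((W (W a) : ↥E) : LaurentSeries L) := by
    rw [D.invol]
    exact h1
  obtain ⟨hN, hres⟩ := rdn_gi_norm_res O hπ q E' E hle hE halg W hW D (W a) h2 h1'
  refine ⟨hN, ?_⟩
  rw [hres]
  congr 2
  exact rdn_res_congr _ _ (by rw [D.invol])

end Data

/-! ## the inclusion algebra structure of `SS/Model/TwoPrimesInst.lean` -/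

section Incl

variable {L : Type*} [Field L] [CharZero L] (O : ValuationSubring L)
  [IsDiscreteValuationRing O] {π : O} (hπ : Irreducible π)
variable (q : ℕ) [NeZero q] [hq : Fact q.Prime] [CharP (ResidueField O) q]
variable (E' E : IntermediateField L (LaurentSeries L)) (hle : E' ≤ E)
  (hE : E ≤ gq_quotField O L)

/-- **[RED-N]** for the inclusion `E' ≤ E`, with the residues in `E'` made explicit. -/
theorem rdn_gt_norm_res_aux (W : ↥E ≃+* ↥E)
    (hW : ∀ z : ↥E', ((W (IntermediateField.inclusion hle z) : ↥E) : LaurentSeries L) =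
      qExpand L q (z : LaurentSeries L))
    {lam : ↥(gq_valSubOf π hπ.ne_zero hπ.maximalIdeal_eq E' (hle.trans hE))}
    (D : letI := ssm_gi_algebra hle
      letI := ssm_gi_algebraV hle (gq_valSubOf π hπ.ne_zero hπ.maximalIdeal_eq E' (hle.trans hE))
      ssm_tw_Data ↥E' ↥(gq_valSubOf π hπ.ne_zero hπ.maximalIdeal_eq E' (hle.trans hE)) q
        (gq_valSubOf π hπ.ne_zero hπ.maximalIdeal_eq E hE) W lam)
    (a : ↥E) (h1 : gq_IsBdd O L (a : LaurentSeries L))
    (h2 : gq_IsBdd O L ((W a : ↥E) : LaurentSeries L)) :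
    letI := ssm_gi_algebra hle
    ∃ (r1 r2 n : ↥E') (hr1 : gq_IsBdd O L (r1 : LaurentSeries L))
      (hr2 : gq_IsBdd O L (r2 : LaurentSeries L)) (hn : gq_IsBdd O L (n : LaurentSeries L)),
      n = Algebra.norm ↥E' a ∧
      gq_res O L ⟨(a : LaurentSeries L), h1⟩ = gq_res O L ⟨(r1 : LaurentSeries L), hr1⟩ ∧
      coeffMap (frobenius (ResidueField O) q)
        (gq_res O L ⟨((W a : ↥E) : LaurentSeries L), h2⟩) =
          gq_res O L ⟨(r2 : LaurentSeries L), hr2⟩ ∧
      gq_res O L ⟨(n : LaurentSeries L), hn⟩ =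
        gq_res O L ⟨(r1 : LaurentSeries L), hr1⟩ * gq_res O L ⟨(r2 : LaurentSeries L), hr2⟩ := by
  letI := ssm_gi_algebra hle
  letI := ssm_gi_algebraV hle (gq_valSubOf π hπ.ne_zero hπ.maximalIdeal_eq E' (hle.trans hE))
  haveI := ssm_gi_isScalarTower hle
    (gq_valSubOf π hπ.ne_zero hπ.maximalIdeal_eq E' (hle.trans hE))
  haveI : FiniteDimensional ↥E' ↥E := ssm_gi_finiteDimensional D.finrank_eq
  haveI : Algebra.IsSeparable ↥E' ↥E := ssm_gi_isSeparable
  exact rdn_gi_norm_res_aux O hπ q E' E hle hE (fun _ => rfl) W hW D a h1 h2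

/-- **[RED-N]** for the inclusion `E' ≤ E`: `red (N_{E/E'} a) = red a · Fr (red (W a))` and
`red (N_{E/E'} (W a)) = red (W a) · Fr (red a)`. -/
theorem rdn_gt_norm_res (W : ↥E ≃+* ↥E)
    (hW : ∀ z : ↥E', ((W (IntermediateField.inclusion hle z) : ↥E) : LaurentSeries L) =
      qExpand L q (z : LaurentSeries L))
    {lam : ↥(gq_valSubOf π hπ.ne_zero hπ.maximalIdeal_eq E' (hle.trans hE))}
    (D : letI := ssm_gi_algebra hle
      letI := ssm_gi_algebraV hle (gq_valSubOf π hπ.ne_zero hπ.maximalIdeal_eq E' (hle.trans hE))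
      ssm_tw_Data ↥E' ↥(gq_valSubOf π hπ.ne_zero hπ.maximalIdeal_eq E' (hle.trans hE)) q
        (gq_valSubOf π hπ.ne_zero hπ.maximalIdeal_eq E hE) W lam)
    (a : ↥E) (h1 : gq_IsBdd O L (a : LaurentSeries L))
    (h2 : gq_IsBdd O L ((W a : ↥E) : LaurentSeries L)) :
    letI := ssm_gi_algebra hle
    (∃ hN : gq_IsBdd O L ((Algebra.norm ↥E' a : ↥E') : LaurentSeries L),
      gq_res O L ⟨((Algebra.norm ↥E' a : ↥E') : LaurentSeries L), hN⟩ =
        gq_res O L ⟨(a : LaurentSeries L), h1⟩ *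
          coeffMap (frobenius (ResidueField O) q)
            (gq_res O L ⟨((W a : ↥E) : LaurentSeries L), h2⟩)) ∧
    ∃ hN : gq_IsBdd O L ((Algebra.norm ↥E' (W a) : ↥E') : LaurentSeries L),
      gq_res O L ⟨((Algebra.norm ↥E' (W a) : ↥E') : LaurentSeries L), hN⟩ =
        gq_res O L ⟨((W a : ↥E) : LaurentSeries L), h2⟩ *
          coeffMap (frobenius (ResidueField O) q) (gq_res O L ⟨(a : LaurentSeries L), h1⟩) := by
  letI := ssm_gi_algebra hle
  letI := ssm_gi_algebraV hle (gq_valSubOf π hπ.ne_zero hπ.maximalIdeal_eq E' (hle.trans hE))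
  haveI := ssm_gi_isScalarTower hle
    (gq_valSubOf π hπ.ne_zero hπ.maximalIdeal_eq E' (hle.trans hE))
  haveI : FiniteDimensional ↥E' ↥E := ssm_gi_finiteDimensional D.finrank_eq
  haveI : Algebra.IsSeparable ↥E' ↥E := ssm_gi_isSeparable
  exact ⟨rdn_gi_norm_res O hπ q E' E hle hE (fun _ => rfl) W hW D a h1 h2,
    rdn_gi_norm_res_W O hπ q E' E hle hE (fun _ => rfl) W hW D a h1 h2⟩

end Incl

end Fermat.Agent.S35
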