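/-
Project S35, cell [RED-N], INSTANCE for the FULL-LEVEL TOWER `F_M(L) ≤ F_{M q}(L)` (helper4).
Prefix `rdn_gf_`.

`F_N(L) = lg_F L N = modularFunctionFieldFullC L N = L(j(X^d) : d ∣ N) ⊆ L((X))`, `q ∤ M` ANY prime
(also `q = 2, 3`), `O ⊆ L` a discrete valuation ring of residue characteristic `q` (any
uniformiser), `W = ssm_al_W` the Atkin–Lehner involution of `F_{M q}(L)` (`W x = x(X^q)` on
`F_M(L)`; over `Q̄` it exchanges `heckeAlphaBar` and `heckeBetaBar`, `ssm_al_W_spec`), coordinate `j`.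

* `rdn_gf_data`     : the data `ssm_tw_Data` of the two-valuations lemma for this tower
                      (so `ssm_tw_res1`, `ssm_tw_pow2`, `ssm_tw_core`, … apply to it);
* `rdn_gf_norm_res` : `red (N a) = red a · Fr (red (W a))`, `red (N (W a)) = red (W a) · Fr (red a)`
                      (`N = N_{F_{M q}/F_M}`, `red = gq_res`, `Fr` = coefficientwise `q`-Frobenius);
* `rdn_gf_res_mem`  : for `a ∈ F_{M q}(L)` Gauss-bounded, `red a ∈ F_M(k)`
                      (`k` the residue field of `O`): the first component is the level-`M` curve.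
-/
import Mathlib
import Fermat.Agent.S35.RedN.Inst
import Fermat.Agent.SS.Model.ALE
import Fermat.Agent.JT3.Bridge.GaussModular
import Fermat.Agent.JT3.Inst.Vert

set_option autoImplicit false
set_option linter.unusedSectionVars false
set_option linter.unusedVariables false
set_option linter.style.haveILetI false

noncomputable section

namespace Fermat.Agent.S35

open ModularCurve IntermediateField IsLocalRing
open Fermat.Agent.JT3 Fermat.Agent.SS

section Full

variable {L : Type*} [Field L] (O : ValuationSubring L)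

/-- every element of `F_N(L)` is a quotient of series with coefficients in `O`. -/
theorem rdn_gf_le_quotField (N : ℕ) [NeZero N] : lg_F L N ≤ gq_quotField O L := by
  rw [lg_F, modularFunctionFieldFullC, IntermediateField.adjoin_le_iff]
  rintro _ ⟨d, hd, -, rfl⟩
  have : qExpand L d (jqModC L) = coeffMap (algebraMap O L) (qExpand O d (jqModC O)) := by
    rw [coeffMap_qExpand, coeffMap_jqModC]
  show qExpand L d (jqModC L) ∈ gq_quotField O L
  rw [this]
  exact gq_iota_mem_quotField _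

variable (q : ℕ) [NeZero q] [hq : Fact q.Prime] [CharP (ResidueField O) q]

omit [NeZero q] in
theorem rdn_gf_j_frobFixed : ssm_ga_FrobFixed q (jqModC O) := by
  unfold ssm_ga_FrobFixed
  rw [coeffMap_jqModC, coeffMap_jqModC]

omit [NeZero q] hq [CharP (ResidueField O) q] in
theorem rdn_gf_j_coeff : residue O ((jqModC O).coeff (-1)) ≠ 0 := by
  rw [coeff_jqModC_neg_one, map_one]
  exact one_ne_zero

omit [NeZero q] [CharP (ResidueField O) q] in
theorem rdn_gf_not_dvd_neg_one : ¬ (q : ℤ) ∣ (-1 : ℤ) := by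
  intro h
  have h1 : (q : ℤ) = 1 ∨ (q : ℤ) = -1 :=
    Int.isUnit_iff.mp (isUnit_of_dvd_unit h (by norm_num))
  have := hq.out.two_le
  omega

end Full

section Tower

variable {L : Type*} [Field L] [CharZero L] [Algebra L (AlgebraicClosure ℚ)]
  (O : ValuationSubring L) [IsDiscreteValuationRing O] {π : O} (hπ : Irreducible π)
variable (M q : ℕ) [NeZero M] [NeZero q] [hq : Fact q.Prime] [CharP (ResidueField O) q]
  (hqM : ¬ q ∣ M)

variable (L) in
/-- the Atkin–Lehner involution of `F_{M q}(L)` as a ring automorphism. -/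
abbrev rdn_gf_W : ↥(lg_F L (M * q)) ≃+* ↥(lg_F L (M * q)) :=
  (ssm_al_W L M q hq.out hqM).toRingEquiv

theorem rdn_gf_W_apply (x : ↥(lg_F L (M * q))) :
    rdn_gf_W L M q hqM x = ssm_al_W L M q hq.out hqM x := rfl

/-- `j` as an element of `F_M(L)`. -/
abbrev rdn_gf_j : ↥(lg_F L M) := ⟨jqModC L, jqModC_mem_full L M⟩

/-- `j` as an element of the Gauss ring of `F_M(L)`. -/
abbrev rdn_gf_lam :
    ↥(gq_valSubOf π hπ.ne_zero hπ.maximalIdeal_eq (lg_F L M)
      ((ssm_al_F_le L M q).trans (rdn_gf_le_quotField O (M * q)))) :=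
  ssm_gt_lam O hπ (lg_F L M) (lg_F L (M * q)) (ssm_al_F_le L M q)
    (rdn_gf_le_quotField O (M * q)) (jqModC O) (rdn_gf_j M) (coeffMap_jqModC _).symm

/-- **the data of the two-valuations lemma for the full-level tower.** -/
theorem rdn_gf_data :
    letI := ssm_gi_algebra (ssm_al_F_le L M q)
    letI := ssm_gi_algebraV (ssm_al_F_le L M q)
      (gq_valSubOf π hπ.ne_zero hπ.maximalIdeal_eq (lg_F L M)
        ((ssm_al_F_le L M q).trans (rdn_gf_le_quotField O (M * q))))
    ssm_tw_Data ↥(lg_F L M)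
      ↥(gq_valSubOf π hπ.ne_zero hπ.maximalIdeal_eq (lg_F L M)
        ((ssm_al_F_le L M q).trans (rdn_gf_le_quotField O (M * q)))) q
      (gq_valSubOf π hπ.ne_zero hπ.maximalIdeal_eq (lg_F L (M * q))
        (rdn_gf_le_quotField O (M * q)))
      (rdn_gf_W L M q hqM) (rdn_gf_lam O hπ M q) :=
  ssm_gt_data O hπ q (lg_F L M) (lg_F L (M * q)) (ssm_al_F_le L M q)
    (rdn_gf_le_quotField O (M * q)) (rdn_gf_W L M q hqM)
    (ssm_al_W_W L M q hq.out hqM)
    (fun z => ssm_al_coe_W_of_mem L M q hq.out hqM z.2 _)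
    (ssm_al_relfinrank L M q hq.out hqM) (jqModC O) (rdn_gf_j_frobFixed O q) (-1)
    (rdn_gf_not_dvd_neg_one q) (rdn_gf_j_coeff O) (rdn_gf_j M) (coeffMap_jqModC _).symm

include hπ in
/-- **[RED-N] for the full-level tower** `F_M(L) ≤ F_{M q}(L)`. -/
theorem rdn_gf_norm_res (a : ↥(lg_F L (M * q))) (h1 : gq_IsBdd O L (a : LaurentSeries L))
    (h2 : gq_IsBdd O L ((rdn_gf_W L M q hqM a : ↥(lg_F L (M * q))) : LaurentSeries L)) :
    letI := ssm_gi_algebra (ssm_al_F_le L M q)
    (∃ hN : gq_IsBdd O L ((Algebra.norm ↥(lg_F L M) a : ↥(lg_F L M)) : LaurentSeries L),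
      gq_res O L ⟨((Algebra.norm ↥(lg_F L M) a : ↥(lg_F L M)) : LaurentSeries L), hN⟩ =
        gq_res O L ⟨(a : LaurentSeries L), h1⟩ *
          coeffMap (frobenius (ResidueField O) q)
            (gq_res O L ⟨((rdn_gf_W L M q hqM a : ↥(lg_F L (M * q))) : LaurentSeries L), h2⟩)) ∧
    ∃ hN : gq_IsBdd O L ((Algebra.norm ↥(lg_F L M) (rdn_gf_W L M q hqM a) :
        ↥(lg_F L M)) : LaurentSeries L),
      gq_res O L ⟨((Algebra.norm ↥(lg_F L M) (rdn_gf_W L M q hqM a) :
          ↥(lg_F L M)) : LaurentSeries L), hN⟩ =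
        gq_res O L ⟨((rdn_gf_W L M q hqM a : ↥(lg_F L (M * q))) : LaurentSeries L), h2⟩ *
          coeffMap (frobenius (ResidueField O) q) (gq_res O L ⟨(a : LaurentSeries L), h1⟩) :=
  rdn_gt_norm_res O hπ q (lg_F L M) (lg_F L (M * q)) (ssm_al_F_le L M q)
    (rdn_gf_le_quotField O (M * q)) (rdn_gf_W L M q hqM)
    (fun z => ssm_al_coe_W_of_mem L M q hq.out hqM z.2 _)
    (rdn_gf_data O hπ M q hqM) a h1 h2

include hπ in
/-- **the first component is the level-`M` curve**: the reduction of a Gauss-bounded element of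
`F_{M q}(L)` lies in `F_M(k)`, and so does the Frobenius twist of the reduction of `W a`. -/
theorem rdn_gf_res_mem (a : ↥(lg_F L (M * q))) (h1 : gq_IsBdd O L (a : LaurentSeries L))
    (h2 : gq_IsBdd O L ((rdn_gf_W L M q hqM a : ↥(lg_F L (M * q))) : LaurentSeries L)) :
    gq_res O L ⟨(a : LaurentSeries L), h1⟩ ∈ modularFunctionFieldFullC (ResidueField O) M ∧
    coeffMap (frobenius (ResidueField O) q)
      (gq_res O L ⟨((rdn_gf_W L M q hqM a : ↥(lg_F L (M * q))) : LaurentSeries L), h2⟩) ∈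
        modularFunctionFieldFullC (ResidueField O) M := by
  obtain ⟨r1, r2, n, hr1, hr2, hn, -, e1, e2, -⟩ :=
    rdn_gt_norm_res_aux O hπ q (lg_F L M) (lg_F L (M * q)) (ssm_al_F_le L M q)
      (rdn_gf_le_quotField O (M * q)) (rdn_gf_W L M q hqM)
      (fun z => ssm_al_coe_W_of_mem L M q hq.out hqM z.2 _)
      (rdn_gf_data O hπ M q hqM) a h1 h2
  have hqO : ((q : ℕ) : ↥O) ∈ maximalIdeal ↥O := by
    rw [← residue_eq_zero_iff, map_natCast]
    exact CharP.cast_eq_zero (ResidueField ↥O) q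
  obtain ⟨ρ⟩ := lgv_exists_rhoO (L := L) (O := ↥O) (IsFractionRing.injective ↥O L) q hqO
  rw [e1, e2]
  exact ⟨gqm_res_mem_full O q M hqM ρ (r1 : LaurentSeries L) r1.2 hr1,
    gqm_res_mem_full O q M hqM ρ (r2 : LaurentSeries L) r2.2 hr2⟩

include hπ in
/-- over a perfect residue field, the reduction of `W a` itself lies in `F_M(k)`. -/
theorem rdn_gf_res_W_mem [PerfectRing (ResidueField O) q] (a : ↥(lg_F L (M * q)))
    (h1 : gq_IsBdd O L (a : LaurentSeries L))
    (h2 : gq_IsBdd O L ((rdn_gf_W L M q hqM a : ↥(lg_F L (M * q))) : LaurentSeries L)) :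
    gq_res O L ⟨((rdn_gf_W L M q hqM a : ↥(lg_F L (M * q))) : LaurentSeries L), h2⟩ ∈
      modularFunctionFieldFullC (ResidueField O) M := by
  have h := (rdn_gf_res_mem O hπ M q hqM a h1 h2).2
  have h' := ssm_al_coeffMap_mem
    ((frobeniusEquiv (ResidueField O) q).symm : ResidueField O →+* ResidueField O) M h
  rw [coeffMap_coeffMap] at h'
  have hid : ((frobeniusEquiv (ResidueField O) q).symm : ResidueField O →+* ResidueField O).comp
      (frobenius (ResidueField O) q) = RingHom.id _ := by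
    ext x
    exact frobeniusEquiv_symm_apply_frobenius (ResidueField O) q x
  rwa [hid, coeffMap_id] at h'

end Tower

end Fermat.Agent.S35
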