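/-
Project S35, cell [RED-N], INSTANCES for the Legendre tower (`q` odd) and the Hesse tower (`q ≠ 3`)
(helper4).  Prefix `rdn_`.

`E' = lg_E L N' ≤ E = lg_E L (N' q)` resp. `hs_E L h3 N' ≤ hs_E L h3 (N' q)`, `O ⊆ L` a discrete
valuation ring of residue characteristic `q` (ANY uniformiser `π`; for the unramified base of S35
take `π = q`), `W` the Atkin–Lehner involution (`ssm_al_WE` resp. `ssm_alh_WE`), `red = gq_res`,
`Fr` the coefficientwise `q`-Frobenius on `k((X))`: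

  `red (N_{E/E'} a) = red a · Fr (red (W a))`,   `red (N_{E/E'} (W a)) = red (W a) · Fr (red a)`

for every `a ∈ E` such that `a` and `W a` are Gauss-bounded (`rdn_gl_norm_res`, `rdn_glh_norm_res`).
-/
import Mathlib
import Fermat.Agent.S35.RedN.Inst
import Fermat.Agent.SS.Model.TwoPrimesLeg
import Fermat.Agent.SS.Model.TwoPrimesHesW

set_option autoImplicit false
set_option linter.unusedSectionVars false
set_option linter.unusedVariables false
set_option linter.style.haveILetI false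

noncomputable section

namespace Fermat.Agent.S35

open ModularCurve IntermediateField IsLocalRing
open Fermat.Agent.JT3 Fermat.Agent.SS

section Legendre

variable {L : Type*} [Field L] [CharZero L] [Algebra L (AlgebraicClosure ℚ)]
  (O : ValuationSubring L) [IsDiscreteValuationRing O] {π : O} (hπ : Irreducible π)
variable (N' q : ℕ) [NeZero N'] [NeZero q] [hq : Fact q.Prime] [CharP (ResidueField O) q]
  (hq2 : ¬ 2 ∣ q) (hqN' : ¬ q ∣ N')

include hπ in
/-- **[RED-N] for the Legendre tower.** -/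
theorem rdn_gl_norm_res (a : ↥(lg_E L (N' * q))) (h1 : gq_IsBdd O L (a : LaurentSeries L))
    (h2 : gq_IsBdd O L
      ((ssm_gl_W L N' q hq2 hqN' a : ↥(lg_E L (N' * q))) : LaurentSeries L)) :
    letI := ssm_gi_algebra (ssm_al_E_le L N' q)
    (∃ hN : gq_IsBdd O L ((Algebra.norm ↥(lg_E L N') a : ↥(lg_E L N')) : LaurentSeries L),
      gq_res O L ⟨((Algebra.norm ↥(lg_E L N') a : ↥(lg_E L N')) : LaurentSeries L), hN⟩ =
        gq_res O L ⟨(a : LaurentSeries L), h1⟩ *
          coeffMap (frobenius (ResidueField O) q)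
            (gq_res O L ⟨((ssm_gl_W L N' q hq2 hqN' a : ↥(lg_E L (N' * q))) :
              LaurentSeries L), h2⟩)) ∧
    ∃ hN : gq_IsBdd O L ((Algebra.norm ↥(lg_E L N') (ssm_gl_W L N' q hq2 hqN' a) :
        ↥(lg_E L N')) : LaurentSeries L),
      gq_res O L ⟨((Algebra.norm ↥(lg_E L N') (ssm_gl_W L N' q hq2 hqN' a) :
          ↥(lg_E L N')) : LaurentSeries L), hN⟩ =
        gq_res O L ⟨((ssm_gl_W L N' q hq2 hqN' a : ↥(lg_E L (N' * q))) :
            LaurentSeries L), h2⟩ *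
          coeffMap (frobenius (ResidueField O) q) (gq_res O L ⟨(a : LaurentSeries L), h1⟩) :=
  rdn_gt_norm_res O hπ q (lg_E L N') (lg_E L (N' * q)) (ssm_al_E_le L N' q)
    (ssm_ga_E_le_quotField O (N' * q)) (ssm_gl_W L N' q hq2 hqN')
    (fun z => ssm_al_coe_WE_of_mem L N' q hq.out hq2 hqN' z.2 _)
    (ssm_gl_data O hπ N' q hq2 hqN') a h1 h2

end Legendre

section Hesse

variable {L : Type*} [Field L] [CharZero L] [Algebra L (AlgebraicClosure ℚ)] (h3 : (3 : L) ≠ 0)
  (hF9 : ∀ (N : ℕ) [NeZero N], hs_E L h3 N = modularFunctionFieldFullC L (Nat.lcm 9 (3 * N)))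
  (O : ValuationSubring L) [IsDiscreteValuationRing O] (h3O : IsUnit (3 : O)) {π : O}
  (hπ : Irreducible π)
variable (N' q : ℕ) [NeZero N'] [NeZero q] [hq : Fact q.Prime] [CharP (ResidueField O) q]
  (hq3 : ¬ 3 ∣ q) (hqN' : ¬ q ∣ N')

include hπ h3O in
/-- **[RED-N] for the Hesse tower.** -/
theorem rdn_glh_norm_res (a : ↥(hs_E L h3 (N' * q))) (h1 : gq_IsBdd O L (a : LaurentSeries L))
    (h2 : gq_IsBdd O L
      ((ssm_glh_W h3 hF9 N' q hq3 hqN' a : ↥(hs_E L h3 (N' * q))) : LaurentSeries L)) :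
    letI := ssm_gi_algebra (ssm_alh_E_le L h3 hF9 N' q)
    (∃ hN : gq_IsBdd O L
        ((Algebra.norm ↥(hs_E L h3 N') a : ↥(hs_E L h3 N')) : LaurentSeries L),
      gq_res O L ⟨((Algebra.norm ↥(hs_E L h3 N') a : ↥(hs_E L h3 N')) : LaurentSeries L), hN⟩ =
        gq_res O L ⟨(a : LaurentSeries L), h1⟩ *
          coeffMap (frobenius (ResidueField O) q)
            (gq_res O L ⟨((ssm_glh_W h3 hF9 N' q hq3 hqN' a : ↥(hs_E L h3 (N' * q))) :
              LaurentSeries L), h2⟩)) ∧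
    ∃ hN : gq_IsBdd O L ((Algebra.norm ↥(hs_E L h3 N') (ssm_glh_W h3 hF9 N' q hq3 hqN' a) :
        ↥(hs_E L h3 N')) : LaurentSeries L),
      gq_res O L ⟨((Algebra.norm ↥(hs_E L h3 N') (ssm_glh_W h3 hF9 N' q hq3 hqN' a) :
          ↥(hs_E L h3 N')) : LaurentSeries L), hN⟩ =
        gq_res O L ⟨((ssm_glh_W h3 hF9 N' q hq3 hqN' a : ↥(hs_E L h3 (N' * q))) :
            LaurentSeries L), h2⟩ *
          coeffMap (frobenius (ResidueField O) q) (gq_res O L ⟨(a : LaurentSeries L), h1⟩) :=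
  rdn_gt_norm_res O hπ q (hs_E L h3 N') (hs_E L h3 (N' * q)) (ssm_alh_E_le L h3 hF9 N' q)
    (hsa_E_le_quotField h3 O (N' * q) h3O) (ssm_glh_W h3 hF9 N' q hq3 hqN')
    (fun z => ssm_alh_coe_WE_of_mem L h3 hF9 N' q hq.out hq3 hqN' z.2 _)
    (ssm_glh_dataW h3 hF9 O h3O hπ N' q hq3 hqN') a h1 h2

end Hesse

end Fermat.Agent.S35
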